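import Fermat.Agent.Arith.Density.Zeta

/-!
# The series over degree one primes
-/

set_option autoImplicit false

noncomputable section

namespace Fermat.Agent.Arith.Density

open scoped ENNReal NumberField Topology
open Filter

variable (K : Type*) [Field K] [NumberField K]

/-- The rational prime below a prime ideal. -/
def below (P : PrimeId K) : ℕ := Ideal.absNorm (P.1.under ℤ)

omit [NumberField K] in
theorem below_prime (P : PrimeId K) : (below K P).Prime := by
  have := P.2.1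
  have : NeZero P.1 := ⟨P.2.2⟩
  exact Nat.absNorm_under_prime P.1

theorem exists_absNorm_eq_pow (P : PrimeId K) :
    ∃ f : ℕ, 1 ≤ f ∧ Ideal.absNorm P.1 = below K P ^ f := by
  have := P.2.1
  have : P.1.LiesOver (Ideal.span {(below K P : ℤ)}) := Int.liesOver_span_absNorm P.1
  refine ⟨_, ?_, Ideal.absNorm_eq_pow_inertiaDeg' P.1 (below_prime K P)⟩
  by_contra h
  have h1 := Ideal.absNorm_eq_pow_inertiaDeg' P.1 (below_prime K P)
  rw [Nat.lt_one_iff.mp (not_le.mp h), pow_zero, Ideal.absNorm_eq_one_iff] at h1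
  exact P.2.1.ne_top h1

theorem below_le_absNorm (P : PrimeId K) : below K P ≤ Ideal.absNorm P.1 := by
  obtain ⟨f, hf, h⟩ := exists_absNorm_eq_pow K P
  exact h ▸ Nat.le_self_pow (by omega) _

theorem absNorm_eq_below_or_sq_le (P : PrimeId K) :
    Ideal.absNorm P.1 = below K P ∨ below K P ^ 2 ≤ Ideal.absNorm P.1 := by
  obtain ⟨f, hf, h⟩ := exists_absNorm_eq_pow K P
  rcases (show f = 1 ∨ 2 ≤ f by omega) with rfl | hf2
  · exact Or.inl (h.trans (pow_one _))
  · exact Or.inr (h ▸ Nat.pow_le_pow_right (below_prime K P).pos hf2)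

theorem card_fibre_le (F : Finset (PrimeId K)) (ℓ : ℕ) :
    (F.filter fun P => below K P = ℓ).card ≤ Module.finrank ℚ K := by
  classical
  rcases (F.filter fun P => below K P = ℓ).eq_empty_or_nonempty with h | ⟨P₀, hP₀⟩
  · simp [h]
  obtain ⟨-, rfl⟩ := Finset.mem_filter.mp hP₀
  have hp : (below K P₀).Prime := below_prime K P₀
  have := Fact.mk hp
  have hp0 : Ideal.span {(below K P₀ : ℤ)} ≠ ⊥ := by simp [hp.ne_zero]
  have hle : (IsDedekindDomain.primesOverFinset (Ideal.span {(below K P₀ : ℤ)}) (𝓞 K)).card ≤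
      Module.finrank ℚ K := by
    rw [← NumberField.RingOfIntegers.rank K,
      ← Ideal.sum_ramification_inertia_eq_finrank (Ideal.span {(below K P₀ : ℤ)}) (𝓞 K),
      ← Set.ncard_coe_finset, IsDedekindDomain.coe_primesOverFinset hp0, ← Nat.card_coe_set_eq,
      Nat.card_eq_fintype_card, Fintype.card_eq_sum_ones]
    exact Finset.sum_le_sum fun q _ =>
      have : q.1.IsPrime := q.2.1
      Nat.mul_pos (Ideal.ramificationIdx_pos q.1 ℤ) (Ideal.inertiaDeg_pos q.1 ℤ)
  refine le_trans (Finset.card_le_card_of_injOn (fun P => P.1) ?_ fun _ _ _ _ h => Subtype.ext h)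
    hle
  intro P hP
  rw [Finset.mem_coe, Finset.mem_filter] at hP
  rw [Finset.mem_coe, IsDedekindDomain.mem_primesOverFinset_iff hp0]
  refine ⟨P.2.1, ?_⟩
  rw [← hP.2]
  exact Int.liesOver_span_absNorm P.1

/-- The weight of a prime as a real number. -/
def y (s : ℝ) (P : PrimeId K) : ℝ := (Ideal.absNorm P.1 : ℝ) ^ (-s)

variable {K}

theorem y_nonneg (s : ℝ) (P : PrimeId K) : 0 ≤ y K s P := Real.rpow_nonneg (Nat.cast_nonneg _) _

theorem two_le_absNorm (P : PrimeId K) : (2 : ℝ) ≤ Ideal.absNorm P.1 :=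
  le_trans (by exact_mod_cast (below_prime K P).two_le) (Nat.cast_le.mpr (below_le_absNorm K P))

theorem y_le_half {s : ℝ} (hs : 1 < s) (P : PrimeId K) : y K s P ≤ 1 / 2 := by
  rw [y, Real.rpow_neg (Nat.cast_nonneg _), one_div]
  refine inv_anti₀ two_pos ((two_le_absNorm P).trans ?_)
  exact Real.self_le_rpow_of_one_le (by linarith [two_le_absNorm P]) hs.le

theorem y_le_inv {s : ℝ} (hs : 1 < s) (P : PrimeId K) :
    y K s P ≤ (Ideal.absNorm P.1 : ℝ)⁻¹ := by
  rw [y, Real.rpow_neg (Nat.cast_nonneg _)]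
  exact inv_anti₀ (by linarith [two_le_absNorm P])
    (Real.self_le_rpow_of_one_le (by linarith [two_le_absNorm P]) hs.le)

/-- The absolute constant `d · ∑ n^{-2}`. -/
def bnd (K : Type*) [Field K] [NumberField K] : ℝ :=
  Module.finrank ℚ K * ∑' n : ℕ, ((n : ℝ) ^ 2)⁻¹

theorem sum_below_le (F : Finset (PrimeId K)) :
    ∑ P ∈ F, ((below K P : ℝ) ^ 2)⁻¹ ≤ bnd K := by
  classical
  rw [← Finset.sum_fiberwise_of_maps_to (t := F.image (below K)) (g := below K)
    (fun P hP => Finset.mem_image_of_mem _ hP)]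
  calc ∑ ℓ ∈ F.image (below K), ∑ P ∈ F.filter (fun P => below K P = ℓ), ((below K P : ℝ) ^ 2)⁻¹
      ≤ ∑ ℓ ∈ F.image (below K), (Module.finrank ℚ K : ℝ) * ((ℓ : ℝ) ^ 2)⁻¹ := by
        refine Finset.sum_le_sum fun ℓ _ => ?_
        rw [Finset.sum_congr rfl (fun P hP => by rw [(Finset.mem_filter.mp hP).2]),
          Finset.sum_const, nsmul_eq_mul]
        gcongr
        exact card_fibre_le K F ℓ
    _ ≤ bnd K := by
        rw [← Finset.mul_sum]
        exact mul_le_mul_of_nonneg_left ((Real.summable_nat_pow_inv.mpr one_lt_two).sum_le_tsum _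
          (fun n _ => by positivity)) (Nat.cast_nonneg _)

theorem sq_y_le {s : ℝ} (hs : 1 < s) (P : PrimeId K) : y K s P ^ 2 ≤ ((below K P : ℝ) ^ 2)⁻¹ := by
  rw [← inv_pow]
  refine pow_le_pow_left₀ (y_nonneg s P) ((y_le_inv hs P).trans ?_) 2
  exact inv_anti₀ (by exact_mod_cast (below_prime K P).pos) (Nat.cast_le.mpr (below_le_absNorm K P))

theorem y_le_of_not_prime {s : ℝ} (hs : 1 < s) (P : PrimeId K)
    (hP : ¬ (Ideal.absNorm P.1).Prime) : y K s P ≤ ((below K P : ℝ) ^ 2)⁻¹ := by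
  refine (y_le_inv hs P).trans (inv_anti₀ ?_ ?_)
  · have := (below_prime K P).pos
    positivity
  · exact_mod_cast (absNorm_eq_below_or_sq_le K P).resolve_left fun h => hP (h ▸ below_prime K P)

/-- `∑ -log (1 - y)` and the sum of `y` over degree one primes differ by a bounded amount. -/
theorem sum_neg_log_le {s : ℝ} (hs : 1 < s) (F : Finset (PrimeId K)) :
    ∑ P ∈ F, -Real.log (1 - y K s P) ≤
      (∑ P ∈ F.filter (fun P => (Ideal.absNorm P.1).Prime), y K s P) + 3 * bnd K := by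
  classical
  have h1 : ∀ P : PrimeId K, -Real.log (1 - y K s P) ≤ y K s P + 2 * ((below K P : ℝ) ^ 2)⁻¹ := by
    intro P
    have hy := y_le_half hs P
    have hy0 := y_nonneg s P
    have h2 := Real.one_sub_inv_le_log_of_pos (show (0 : ℝ) < 1 - y K s P by linarith)
    have h3 : (1 - y K s P)⁻¹ ≤ 1 + y K s P + 2 * y K s P ^ 2 := by
      rw [inv_le_iff_one_le_mul₀ (by linarith)]
      nlinarith [mul_nonneg (sq_nonneg (y K s P)) (show (0:ℝ) ≤ 1 - 2 * y K s P by linarith)]
    linarith [sq_y_le hs P]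
  refine (Finset.sum_le_sum fun P _ => h1 P).trans ?_
  rw [Finset.sum_add_distrib, ← Finset.mul_sum,
    ← Finset.sum_filter_add_sum_filter_not F (fun P => (Ideal.absNorm P.1).Prime) (y K s)]
  have h6 := sum_below_le F
  have h7 : ∑ P ∈ F.filter (fun P => ¬ (Ideal.absNorm P.1).Prime), y K s P ≤ bnd K :=
    (Finset.sum_le_sum fun P hP => y_le_of_not_prime hs P (Finset.mem_filter.mp hP).2).trans (sum_below_le _)
  linarith

theorem sum_y_le_neg_log {s : ℝ} (hs : 1 < s) (F : Finset (PrimeId K)) :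
    ∑ P ∈ F, y K s P ≤ ∑ P ∈ F, -Real.log (1 - y K s P) := by
  refine Finset.sum_le_sum fun P _ => ?_
  have := Real.log_le_sub_one_of_pos (show (0 : ℝ) < 1 - y K s P by linarith [y_le_half hs P])
  linarith

variable (K)

/-- The Dedekind zeta function at real `s` as a sum over nonzero ideals. -/
def zetaE (s : ℝ) : ℝ≥0∞ := ∑' I : {I : Ideal (𝓞 K) // I ≠ 0}, weight K s I.1

theorem zetaE_eq_iSup_exp {s : ℝ} (hs : 1 < s) :
    zetaE K s = ⨆ F : Finset (PrimeId K),
      ENNReal.ofReal (Real.exp (∑ P ∈ F, -Real.log (1 - y K s P))) := by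
  classical
  rw [zetaE, tsum_weight_eq_iSup]
  refine iSup_congr fun F => ?_
  rw [Real.exp_sum, ENNReal.ofReal_prod_of_nonneg fun P _ => (Real.exp_pos _).le]
  refine Finset.prod_congr rfl fun P _ => ?_
  have h : (0 : ℝ) < 1 - y K s P := by linarith [y_le_half hs P]
  rw [Real.exp_neg, Real.exp_log h, ENNReal.ofReal_inv_of_pos h,
    ENNReal.ofReal_sub 1 (y_nonneg s P), ENNReal.ofReal_one]
  rfl

theorem tsum_fibre_eq (s : ℝ) (n : ℕ) :
    (Nat.card {I : Ideal (𝓞 K) // Ideal.absNorm I = n} : ℝ≥0∞) *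
        (if n = 0 then 0 else ENNReal.ofReal ((n : ℝ) ^ (-s))) =
      ∑' b : (fun I : {I : Ideal (𝓞 K) // I ≠ 0} => Ideal.absNorm I.1) ⁻¹' {n},
        weight K s b.1.1 := by
  rcases eq_or_ne n 0 with rfl | hn
  · rw [if_pos rfl, mul_zero]
    have : IsEmpty ((fun I : {I : Ideal (𝓞 K) // I ≠ 0} => Ideal.absNorm I.1) ⁻¹' {0}) :=
      ⟨fun b => b.1.2 (Ideal.absNorm_eq_zero_iff.mp b.2)⟩
    exact tsum_empty.symm
  · rw [if_neg hn]
    have hw : ∀ b : (fun I : {I : Ideal (𝓞 K) // I ≠ 0} => Ideal.absNorm I.1) ⁻¹' {n},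
        weight K s b.1.1 = ENNReal.ofReal ((n : ℝ) ^ (-s)) := fun b => by
      have hb : Ideal.absNorm b.1.1 = n := Set.mem_singleton_iff.mp (Set.mem_preimage.mp b.2)
      unfold weight
      rw [hb]
    rw [tsum_congr hw]
    have : Finite {I : Ideal (𝓞 K) // Ideal.absNorm I = n} :=
      (Ideal.finite_setOfPred_absNorm_eq n).to_subtype
    let e : ((fun I : {I : Ideal (𝓞 K) // I ≠ 0} => Ideal.absNorm I.1) ⁻¹' {n}) ≃
        {I : Ideal (𝓞 K) // Ideal.absNorm I = n} :=
      { toFun := fun b => ⟨b.1.1, b.2⟩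
        invFun := fun I => ⟨⟨I.1, fun h => hn (by rw [← I.2, h]; simp)⟩, I.2⟩
        left_inv := fun b => rfl
        right_inv := fun I => rfl }
    rw [← e.symm.tsum_eq, ENNReal.tsum_const, ENat.card_eq_coe_natCard]
    rfl

/-- The zeta function near `1`: bounded above and below by a multiple of `1/(s-1)`. -/
theorem eventually_zetaE :
    ∀ᶠ s in 𝓝[>] (1 : ℝ), ∃ z : ℝ, zetaE K s = ENNReal.ofReal z ∧
      NumberField.dedekindZeta_residue K / 2 ≤ (s - 1) * z ∧
      (s - 1) * z ≤ 2 * NumberField.dedekindZeta_residue K := by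
  set r := NumberField.dedekindZeta_residue K
  have hr : 0 < r := NumberField.dedekindZeta_residue_pos K
  have h := ((Complex.continuous_re.tendsto _).comp
    (NumberField.tendsto_sub_one_mul_dedekindZeta_nhdsGT K)).eventually
      (Icc_mem_nhds (show r / 2 < r by linarith) (show r < 2 * r by linarith))
  filter_upwards [h, self_mem_nhdsWithin] with s hs (hs1 : 1 < s)
  simp only [Function.comp_apply] at hs
  let a : ℕ → ℕ := fun n => Nat.card {I : Ideal (𝓞 K) // Ideal.absNorm I = n}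
  let f : ℕ → ℝ := fun n => if n = 0 then 0 else (a n : ℝ) * (n : ℝ) ^ (-s)
  have hterm : ∀ n, LSeries.term (fun n => (a n : ℂ)) (s : ℂ) n = (f n : ℂ) := by
    intro n
    rcases eq_or_ne n 0 with rfl | hn
    · simp [f]
    · simp only [f, if_neg hn, LSeries.term_of_ne_zero hn, Complex.ofReal_mul, Complex.ofReal_natCast]
      rw [div_eq_mul_inv, ← Complex.cpow_neg, Complex.ofReal_cpow (Nat.cast_nonneg n)]
      simp
  have hz : NumberField.dedekindZeta K (s : ℂ) = ((∑' n, f n : ℝ) : ℂ) := by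
    rw [Complex.ofReal_tsum]
    exact tsum_congr hterm
  rw [hz, ← Complex.ofReal_one, ← Complex.ofReal_sub, ← Complex.ofReal_mul, Complex.ofReal_re] at hs
  have hsum : Summable f := by
    by_contra hns
    have := hs.1
    rw [tsum_eq_zero_of_not_summable hns, mul_zero] at this
    linarith
  refine ⟨_, ?_, hs.1, hs.2⟩
  rw [zetaE, ← ENNReal.tsum_fiberwise _ (fun I => Ideal.absNorm I.1),
    ENNReal.ofReal_tsum_of_nonneg (fun n => by positivity) hsum]
  refine tsum_congr fun n => ?_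
  rw [← tsum_fibre_eq]
  rcases eq_or_ne n 0 with rfl | hn
  · simp [f]
  · simp only [f, if_neg hn, ENNReal.ofReal_mul (Nat.cast_nonneg _), ENNReal.ofReal_natCast, a]

/-- `∑_{N𝔭 prime} N𝔭^{-s} = log (1/(s-1)) + O(1)`. -/
theorem degreeOne_asymptotic :
    ∃ C : ℝ, ∀ᶠ s in 𝓝[>] (1 : ℝ),
      Summable (fun P : {P : PrimeId K // (Ideal.absNorm P.1).Prime} => y K s P.1) ∧
      |(∑' P : {P : PrimeId K // (Ideal.absNorm P.1).Prime}, y K s P.1) + Real.log (s - 1)| ≤ C := by
  classical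
  set r := NumberField.dedekindZeta_residue K
  have hr : 0 < r := NumberField.dedekindZeta_residue_pos K
  refine ⟨|Real.log (r / 2)| + |Real.log (2 * r)| + 3 * bnd K, ?_⟩
  filter_upwards [eventually_zetaE K, self_mem_nhdsWithin] with s ⟨z, hz, hz1, hz2⟩ (hs : 1 < s)
  have hz0 : 0 < z := by
    by_contra hneg
    nlinarith
  have hlo : Real.log (r / 2) ≤ Real.log (s - 1) + Real.log z := by
    rw [← Real.log_mul (by linarith) hz0.ne']
    exact Real.log_le_log (by linarith) hz1
  have hhi : Real.log (s - 1) + Real.log z ≤ Real.log (2 * r) := by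
    rw [← Real.log_mul (by linarith) hz0.ne']
    exact Real.log_le_log (mul_pos (by linarith) hz0) hz2
  -- the upper bound
  have hup : ∀ F : Finset {P : PrimeId K // (Ideal.absNorm P.1).Prime},
      ∑ P ∈ F, y K s P.1 ≤ Real.log z := by
    intro F
    have h1 := sum_y_le_neg_log hs (F.map (Function.Embedding.subtype _))
    rw [Finset.sum_map] at h1
    refine le_trans (le_of_eq rfl) (h1.trans ?_)
    rw [Real.le_log_iff_exp_le hz0]
    have h2 := le_iSup (fun F : Finset (PrimeId K) =>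
      ENNReal.ofReal (Real.exp (∑ P ∈ F, -Real.log (1 - y K s P))))
        (F.map (Function.Embedding.subtype _))
    rw [← zetaE_eq_iSup_exp K hs, hz] at h2
    exact (ENNReal.ofReal_le_ofReal_iff hz0.le).mp h2
  have hsum : Summable (fun P : {P : PrimeId K // (Ideal.absNorm P.1).Prime} => y K s P.1) :=
    summable_of_sum_le (fun P => y_nonneg s P.1) hup
  refine ⟨hsum, abs_le.mpr ⟨?_, ?_⟩⟩
  · -- the lower bound
    set T := ∑' P : {P : PrimeId K // (Ideal.absNorm P.1).Prime}, y K s P.1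
    have h1 : ENNReal.ofReal z ≤ ENNReal.ofReal (Real.exp (T + 3 * bnd K)) := by
      rw [← hz, zetaE_eq_iSup_exp K hs]
      refine iSup_le fun F => ENNReal.ofReal_le_ofReal (Real.exp_le_exp.mpr ?_)
      refine (sum_neg_log_le hs F).trans (add_le_add ?_ le_rfl)
      rw [← Finset.sum_subtype_eq_sum_filter]
      exact hsum.sum_le_tsum _ fun P _ => y_nonneg s P.1
    rw [ENNReal.ofReal_le_ofReal_iff (Real.exp_pos _).le, ← Real.log_le_iff_le_exp hz0] at h1
    linarith [neg_abs_le (Real.log (r / 2)), abs_nonneg (Real.log (2 * r))]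
  · have h1 := hsum.tsum_le_of_sum_le hup
    have h2 := le_abs_self (Real.log (2 * r))
    have h3 : (0 : ℝ) ≤ bnd K := by simpa using sum_below_le (∅ : Finset (PrimeId K))
    linarith [abs_nonneg (Real.log (r / 2))]

end Fermat.Agent.Arith.Density
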