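import Fermat.Agent.Arith.Density.Asymp
import Fermat.Agent.Arith.Density.Split

/-!
# Frobenius density theorem
-/

set_option autoImplicit false
set_option maxHeartbeats 400000

noncomputable section

namespace Fermat.Agent.Arith.Density

open scoped Topology Pointwise
open Filter Subgroup

/-- Generators of a finite cyclic subgroup. -/
theorem card_zpowers_eq {G : Type*} [Group G] [Finite G] (w : G) :
    Nat.card {z : G // zpowers z = zpowers w} = (orderOf w).totient := by
  classical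
  have := Fintype.ofFinite G
  have := Fintype.ofFinite (zpowers w)
  have h := IsCyclic.card_orderOf_eq_totient (α := zpowers w) (d := orderOf w)
    (by rw [← Nat.card_eq_fintype_card, Nat.card_zpowers])
  rw [← h, ← Fintype.card_subtype, ← Nat.card_eq_fintype_card]
  refine Nat.card_congr
    { toFun := fun z => ⟨⟨z.1, z.2.le (mem_zpowers z.1)⟩, ?_⟩
      invFun := fun a => ⟨(a.1 : G), ?_⟩
      left_inv := fun z => rfl
      right_inv := fun a => rfl }
  · rw [Subgroup.orderOf_mk, ← Nat.card_zpowers, z.2, Nat.card_zpowers]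
  · refine Subgroup.eq_of_le_of_card_ge (zpowers_le.mpr a.1.2) ?_
    rw [Nat.card_zpowers, Nat.card_zpowers, Subgroup.orderOf_coe, a.2]

variable (L : IntermediateField ℚ QBar) [FiniteDimensional ℚ L] [IsGalois ℚ L]

/-- A choice of Frobenius at some place over `ℓ`. -/
def frobAt (ℓ : ℕ) : GQ :=
  if h : ℓ.Prime then
    (exists_isFrobeniusAt (exists_liesOverPrime h).choose_spec h).choose
  else 1

theorem frobAt_spec {ℓ : ℕ} (h : ℓ.Prime) :
    (exists_liesOverPrime h).choose.IsFrobeniusAt (frobAt ℓ) ℓ := by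
  rw [frobAt, dif_pos h]
  exact (exists_isFrobeniusAt (exists_liesOverPrime h).choose_spec h).choose_spec

/-- The image of the chosen Frobenius at `ℓ` in `Gal(L/ℚ)`. -/
def frobL (ℓ : ℕ) : Gal(L/ℚ) := AlgEquiv.restrictNormalHom L (frobAt ℓ)

omit [FiniteDimensional ℚ ↥L] in
theorem frobL_commutes (ℓ : ℕ) (x : L) : frobAt ℓ (x : QBar) = ((frobL L ℓ x : L) : QBar) :=
  (AlgEquiv.restrictNormal_commutes (frobAt ℓ) L x).symm

/-- The subfield fixed by `z`. -/
abbrev fixedBy (z : Gal(L/ℚ)) : IntermediateField ℚ L := IntermediateField.fixedField (zpowers z)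

/-- Embeddings of the field fixed by `z`, from automorphisms of `L`. -/
def embOf (z x : Gal(L/ℚ)) : fixedBy L z →ₐ[ℚ] QBar :=
  L.val.comp ((x : L →ₐ[ℚ] L).comp (fixedBy L z).val)

omit [IsGalois ℚ ↥L] in
theorem embOf_eq_iff (z x x' : Gal(L/ℚ)) :
    embOf L z x = embOf L z x' ↔ x'⁻¹ * x ∈ zpowers z := by
  rw [← IntermediateField.fixingSubgroup_fixedField (zpowers z),
    IntermediateField.mem_fixingSubgroup_iff]
  constructor
  · intro h k hk
    have h1 : x k = x' k := L.val.injective (AlgHom.congr_fun h ⟨k, hk⟩)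
    rw [AlgEquiv.mul_apply, h1]
    exact x'.symm_apply_apply k
  · intro h
    refine AlgHom.ext fun k => ?_
    have h1 := congrArg x' (h (k : L) k.2)
    rw [AlgEquiv.mul_apply] at h1
    rw [show x' (x'⁻¹ (x (k : L))) = x (k : L) from x'.apply_symm_apply _] at h1
    show ((x (k : L) : L) : QBar) = ((x' (k : L) : L) : QBar)
    rw [h1]

omit [FiniteDimensional ℚ ↥L] in
theorem embOf_surjective (z : Gal(L/ℚ)) : Function.Surjective (embOf L z) := by
  intro f
  obtain ⟨F, hF⟩ := IntermediateField.exists_algHom_of_splits (F := ℚ) (E := L) (K := QBar)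
    (fun s => ⟨Algebra.IsIntegral.isIntegral s, IsAlgClosed.splits _⟩) f
  refine ⟨AlgEquiv.ofBijective (F.restrictNormal' L).toAlgHom (F.restrictNormal' L).bijective, ?_⟩
  refine AlgHom.ext fun k => ?_
  show ((F.restrictNormal' L (k : L) : L) : QBar) = f k
  rw [← hF]
  exact F.restrictNormal_commutes L (k : L)

instance fixedBy_numberField (z : Gal(L/ℚ)) : NumberField (fixedBy L z) :=
  { to_finiteDimensional := inferInstance }

theorem mul_card_fixed (z : Gal(L/ℚ)) (ℓ : ℕ) :
    orderOf z * Nat.card {f : fixedBy L z →ₐ[ℚ] QBar //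
        (frobAt ℓ : QBar →ₐ[ℚ] QBar).comp f = f} =
      Nat.card {x : Gal(L/ℚ) // x⁻¹ * frobL L ℓ * x ∈ zpowers z} := by
  classical
  have hfix : ∀ x : Gal(L/ℚ), (frobAt ℓ : QBar →ₐ[ℚ] QBar).comp (embOf L z x) = embOf L z x ↔
      x⁻¹ * frobL L ℓ * x ∈ zpowers z := by
    intro x
    have h1 : (frobAt ℓ : QBar →ₐ[ℚ] QBar).comp (embOf L z x) = embOf L z (frobL L ℓ * x) :=
      AlgHom.ext fun k => frobL_commutes L ℓ (x (k : L))
    rw [h1, embOf_eq_iff, mul_assoc]
  choose sec hsec using embOf_surjective L z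
  rw [← Nat.card_zpowers, ← Nat.card_prod]
  refine Nat.card_congr
    { toFun := fun p => ⟨sec p.2.1 * p.1.1, (hfix _).mp (by
        have h : embOf L z (sec p.2.1 * p.1.1) = p.2.1 := by
          refine ((embOf_eq_iff L z _ _).mpr ?_).trans (hsec p.2.1)
          rw [inv_mul_cancel_left]; exact p.1.2
        rw [h]; exact p.2.2)⟩
      invFun := fun x => (⟨(sec (embOf L z x.1))⁻¹ * x.1,
          (embOf_eq_iff L z _ _).mp (hsec (embOf L z x.1)).symm⟩,
        ⟨embOf L z x.1, (hfix x.1).mpr x.2⟩)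
      left_inv := fun p => by
        have h : embOf L z (sec p.2.1 * p.1.1) = p.2.1 := by
          refine ((embOf_eq_iff L z _ _).mpr ?_).trans (hsec p.2.1)
          rw [inv_mul_cancel_left]; exact p.1.2
        refine Prod.ext (Subtype.ext ?_) (Subtype.ext h)
        show (sec (embOf L z (sec p.2.1 * p.1.1)))⁻¹ * (sec p.2.1 * p.1.1) = p.1.1
        rw [h, inv_mul_cancel_left]
      right_inv := fun x => Subtype.ext (mul_inv_cancel_left _ _) }

theorem hasLogPole_card_mem (z : Gal(L/ℚ)) :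
    HasLogPole (fun ℓ : ℕ => if ℓ.Prime then
      (Nat.card {x : Gal(L/ℚ) // x⁻¹ * frobL L ℓ * x ∈ zpowers z} : ℝ) else 0) (orderOf z) := by
  obtain ⟨B, hB⟩ := exists_bound_good (fixedBy L z)
  have h1 := (hasLogPole_degOneCount (fixedBy L z)).smul (orderOf z : ℝ)
  have h2 : HasLogPole (fun ℓ : ℕ => (if ℓ.Prime then
      (Nat.card {x : Gal(L/ℚ) // x⁻¹ * frobL L ℓ * x ∈ zpowers z} : ℝ) else 0) -
      (orderOf z : ℝ) * degOneCount (fixedBy L z) ℓ) 0 := by
    refine HasLogPole.of_finite_support B fun ℓ hℓB => ?_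
    by_cases hℓ : ℓ.Prime
    · rw [if_pos hℓ, degOneCount, if_pos hℓ,
        ← card_fixed_embeddings (exists_liesOverPrime hℓ).choose_spec hℓ (hB ℓ hℓ hℓB)
          (frobAt_spec hℓ), ← Nat.cast_mul, mul_card_fixed, sub_self]
    · rw [if_neg hℓ, degOneCount, if_neg hℓ, mul_zero, sub_self]
  exact (h2.add h1).congr (fun ℓ => sub_add_cancel _ _) (by ring)

/-- The weighted count of conjugates of the Frobenius generating the same subgroup as `z`. -/
def genCount (z : Gal(L/ℚ)) (ℓ : ℕ) : ℝ :=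
  if ℓ.Prime then
    (Nat.card {x : Gal(L/ℚ) // zpowers (x⁻¹ * frobL L ℓ * x) = zpowers z} : ℝ) /
      ((orderOf z).totient : ℝ)
  else 0

theorem sum_genCount [Fintype Gal(L/ℚ)] [DecidableEq Gal(L/ℚ)] (z : Gal(L/ℚ)) (ℓ : ℕ)
    [DecidablePred (· ∈ zpowers z)] :
    ∑ w ∈ Finset.univ.filter (· ∈ zpowers z), genCount L w ℓ =
      if ℓ.Prime then (Nat.card {x : Gal(L/ℚ) // x⁻¹ * frobL L ℓ * x ∈ zpowers z} : ℝ) else 0 := by
  classical
  by_cases hℓ : ℓ.Prime
  · simp only [genCount, if_pos hℓ]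
    rw [Nat.card_eq_fintype_card, Fintype.card_subtype, Finset.card_filter, Nat.cast_sum]
    simp_rw [Nat.card_eq_fintype_card, Fintype.card_subtype, Finset.card_filter, Nat.cast_sum,
      Finset.sum_div]
    rw [Finset.sum_comm]
    refine Finset.sum_congr rfl fun x _ => ?_
    set u := x⁻¹ * frobL L ℓ * x with hu
    have hord : ∀ w : Gal(L/ℚ), zpowers u = zpowers w → orderOf w = orderOf u := fun w hw => by
      rw [← Nat.card_zpowers, ← hw, Nat.card_zpowers]
    have key : ∀ w : Gal(L/ℚ), (((if zpowers u = zpowers w then 1 else 0 : ℕ) : ℝ)) /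
        ((orderOf w).totient : ℝ) =
          if zpowers u = zpowers w then 1 / ((orderOf u).totient : ℝ) else 0 := fun w => by
      split_ifs with hw
      · rw [hord w hw, Nat.cast_one]
      · rw [Nat.cast_zero, zero_div]
    rw [Finset.sum_congr rfl (fun w _ => key w), ← Finset.sum_filter, Finset.filter_filter,
      Finset.sum_const, nsmul_eq_mul]
    by_cases hmem : u ∈ zpowers z
    · rw [if_pos hmem]
      have h2 : (Finset.univ.filter fun w => w ∈ zpowers z ∧ zpowers u = zpowers w) =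
          Finset.univ.filter fun w => zpowers w = zpowers u := by
        refine Finset.filter_congr fun w _ => ⟨fun h => h.2.symm, fun h => ⟨?_, h.symm⟩⟩
        exact (zpowers_le.mpr hmem) (h ▸ mem_zpowers w)
      rw [h2, ← Fintype.card_subtype, ← Nat.card_eq_fintype_card, card_zpowers_eq, Nat.cast_one,
        mul_one_div_cancel]
      exact Nat.cast_ne_zero.mpr (Nat.totient_pos.mpr (orderOf_pos u)).ne'
    · rw [if_neg hmem, Finset.filter_eq_empty_iff.mpr fun w _ h =>
        hmem ((zpowers_le.mpr h.1) (h.2 ▸ mem_zpowers u))]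
      simp
  · simp [genCount, hℓ]

theorem hasLogPole_genCount (z : Gal(L/ℚ)) : HasLogPole (genCount L z) 1 := by
  classical
  have : Fintype Gal(L/ℚ) := Fintype.ofFinite _
  induction hn : orderOf z using Nat.strong_induction_on generalizing z with
  | _ n ih =>
  subst hn
  set C := Finset.univ.filter (fun w : Gal(L/ℚ) => w ∈ zpowers z) with hC
  set gens := C.filter (fun w => zpowers w = zpowers z) with hgens
  set others := C.filter (fun w => ¬ zpowers w = zpowers z) with hothers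
  have hothers' : HasLogPole (fun ℓ => ∑ w ∈ others, genCount L w ℓ) (others.card : ℝ) := by
    refine (HasLogPole.finset_sum others (a := fun _ => 1) fun w hw => ?_).congr (fun _ => rfl)
      (by simp)
    rw [hothers, Finset.mem_filter, hC, Finset.mem_filter] at hw
    refine ih _ ?_ w rfl
    rw [← Nat.card_zpowers, ← Nat.card_zpowers z]
    by_contra hlt
    exact hw.2 (Subgroup.eq_of_le_of_card_ge (zpowers_le.mpr hw.1.2) (not_lt.mp hlt))
  have hgens' : ∀ w ∈ gens, ∀ ℓ, genCount L w ℓ = genCount L z ℓ := by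
    intro w hw ℓ
    rw [hgens, Finset.mem_filter] at hw
    have : orderOf w = orderOf z := by rw [← Nat.card_zpowers, hw.2, Nat.card_zpowers]
    simp only [genCount, hw.2, this]
  have hcardC : (C.card : ℝ) = orderOf z := by
    rw [hC, ← Fintype.card_subtype, ← Nat.card_eq_fintype_card]
    exact_mod_cast Nat.card_zpowers z
  have hgens_pos : (gens.card : ℝ) ≠ 0 := by
    refine Nat.cast_ne_zero.mpr (Finset.card_ne_zero.mpr ⟨z, ?_⟩)
    simp [hgens, hC]
  have hsum : (gens.card : ℝ) + (others.card : ℝ) = C.card := by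
    exact_mod_cast Finset.card_filter_add_card_filter_not (s := C) _
  refine (((hasLogPole_card_mem L z).sub hothers').smul (gens.card : ℝ)⁻¹).congr (fun ℓ => ?_) ?_
  · rw [← sum_genCount, ← hC, ← Finset.sum_filter_add_sum_filter_not C
      (fun w => zpowers w = zpowers z) (fun w => genCount L w ℓ), ← hgens, ← hothers,
      add_sub_cancel_right, Finset.sum_congr rfl (fun w hw => hgens' w hw ℓ), Finset.sum_const,
      nsmul_eq_mul, inv_mul_cancel_left₀ hgens_pos]
  · rw [← hcardC, ← hsum, add_sub_cancel_right, inv_mul_cancel₀ hgens_pos]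

/-- **Frobenius density theorem**: some Frobenius element, at a prime above any bound, generates
in `Gal(L/ℚ)` the same cyclic subgroup as `g`. -/
theorem exists_frobenius_zpowers_eq (g : GQ) (S : Finset ℕ) :
    ∃ ℓ : ℕ, ℓ.Prime ∧ ℓ ∉ S ∧ ∃ A : ValuationSubring QBar, A.LiesOverPrime ℓ ∧
      ∃ σ : GQ, A.IsFrobeniusAt σ ℓ ∧
        zpowers (AlgEquiv.restrictNormalHom L σ) = zpowers (AlgEquiv.restrictNormalHom L g) := by
  obtain ⟨ℓ, hℓB, hne⟩ :=
    (hasLogPole_genCount L (AlgEquiv.restrictNormalHom L g)).exists_gt one_ne_zero (S.sup id)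
  have hℓ : ℓ.Prime := by
    by_contra h
    exact hne (by simp [genCount, h])
  have hpos : Nonempty {x : Gal(L/ℚ) //
      zpowers (x⁻¹ * frobL L ℓ * x) = zpowers (AlgEquiv.restrictNormalHom L g)} := by
    by_contra h
    rw [not_nonempty_iff] at h
    exact hne (by simp [genCount, Nat.card_of_isEmpty])
  obtain ⟨⟨x, hx⟩⟩ := hpos
  obtain ⟨y, rfl⟩ := AlgEquiv.restrictNormalHom_surjective (K₁ := L) QBar x
  refine ⟨ℓ, hℓ, fun h => ?_, y⁻¹ • (exists_liesOverPrime hℓ).choose,
    liesOverPrime_smul_iff.mpr (exists_liesOverPrime hℓ).choose_spec, y⁻¹ * frobAt ℓ * y⁻¹⁻¹,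
    isFrobeniusAt_conj (frobAt_spec hℓ), ?_⟩
  · have := Finset.le_sup (f := id) h
    simp only [id_eq] at this
    omega
  · rw [← hx, inv_inv, map_mul, map_mul, map_inv]
    rfl

omit [FiniteDimensional ℚ L] [IsGalois ℚ L] in
/-- Frobenius density for a homomorphism factoring through a finite level. -/
theorem exists_frobenius_pow {M : Type*} [Monoid M] (ρ : GQ →* M) (L : IntermediateField ℚ QBar)
    [FiniteDimensional ℚ L] (hL : ∀ σ : GQ, (∀ x ∈ L, σ x = x) → ρ σ = 1) (g : GQ)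
    (S : Finset ℕ) :
    ∃ ℓ : ℕ, ℓ.Prime ∧ ℓ ∉ S ∧ ∃ A : ValuationSubring QBar, A.LiesOverPrime ℓ ∧
      ∃ σ : GQ, A.IsFrobeniusAt σ ℓ ∧ (∃ i : ℕ, ρ g = ρ σ ^ i) ∧ ∃ j : ℕ, ρ σ = ρ g ^ j := by
  let L' : IntermediateField ℚ QBar := IntermediateField.normalClosure ℚ L QBar
  have : Normal ℚ L' := normalClosure.normal ℚ L QBar
  have : IsGalois ℚ L' := ⟨⟩
  have hLL' : L ≤ L' := L.le_normalClosure
  obtain ⟨ℓ, hℓ, hℓS, A, hA, σ, hσ, hz⟩ := exists_frobenius_zpowers_eq L' g S
  have hker : ∀ τ τ' : GQ, AlgEquiv.restrictNormalHom L' τ = AlgEquiv.restrictNormalHom L' τ' →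
      ρ τ = ρ τ' := by
    intro τ τ' h
    have h1 : ρ (τ'⁻¹ * τ) = 1 := hL _ fun x hx => by
      have h2 := congrArg Subtype.val (AlgEquiv.congr_fun h ⟨x, hLL' hx⟩)
      have e1 : ((AlgEquiv.restrictNormalHom L' τ ⟨x, hLL' hx⟩ : L') : QBar) = τ x :=
        AlgEquiv.restrictNormal_commutes τ L' _
      have e2 : ((AlgEquiv.restrictNormalHom L' τ' ⟨x, hLL' hx⟩ : L') : QBar) = τ' x :=
        AlgEquiv.restrictNormal_commutes τ' L' _
      rw [e1, e2] at h2
      rw [AlgEquiv.mul_apply, h2]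
      exact τ'.symm_apply_apply x
    rw [← mul_inv_cancel_left τ' τ, map_mul, h1, mul_one]
  have hpow : ∀ a b : GQ, AlgEquiv.restrictNormalHom L' a ∈
      zpowers (AlgEquiv.restrictNormalHom L' b) → ∃ i : ℕ, ρ a = ρ b ^ i := by
    intro a b h
    rw [← IsOfFinOrder.mem_powers_iff_mem_zpowers (isOfFinOrder_of_finite _),
      Submonoid.mem_powers_iff] at h
    obtain ⟨i, hi⟩ := h
    exact ⟨i, by rw [← map_pow]; exact hker a (b ^ i) (by rw [map_pow, hi])⟩
  exact ⟨ℓ, hℓ, hℓS, A, hA, σ, hσ, hpow g σ (hz ▸ mem_zpowers _), hpow σ g (hz ▸ mem_zpowers _)⟩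

/-- A finite-level homomorphism trivial on Frobenius elements outside a finite set is trivial. -/
theorem eq_one_of_frobenius {M : Type*} [Monoid M] (ρ : GQ →* M) (L : IntermediateField ℚ QBar)
    [FiniteDimensional ℚ L] (hL : ∀ σ : GQ, (∀ x ∈ L, σ x = x) → ρ σ = 1) (S : Finset ℕ)
    (h : ∀ ℓ : ℕ, ℓ.Prime → ℓ ∉ S → ∀ A : ValuationSubring QBar, A.LiesOverPrime ℓ →
      ∀ σ : GQ, A.IsFrobeniusAt σ ℓ → ρ σ = 1) : ρ = 1 := by
  ext g
  obtain ⟨ℓ, hℓ, hℓS, A, hA, σ, hσ, ⟨i, hi⟩, -⟩ := exists_frobenius_pow ρ L hL g S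
  rw [hi, h ℓ hℓ hℓS A hA σ hσ, one_pow, MonoidHom.one_apply]

end Fermat.Agent.Arith.Density
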